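/-
LSb / Count23 / Numerics (helper6).
The arithmetic of (COUNT) at `q = 2` (levels `M` with `9 ∣ M`) and `q = 3` (levels `M` with `4 ∣ M`):
`g(M q) + 1 - 2 g(M) = (q - 1) ψ(M) / 12`.
* `cuspCount_mul_prime_of_not_dvd` : `c(M q) = 2 c(M)` for a prime `q ∤ M`;
* `twelve_mul_two`, `six_mul_three` : the genus identities, for ANY genera of
  `FBar (M q)`, `FBar M` (`IsCurveOfGenus`).
-/
import Fermat.Agent.S18lib.Gin0.RH
import Fermat.Agent.S18lib.Gin0.Genus
import Fermat.Agent.S18lib.RRgen.Canonical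
import Fermat.Agent.ProgramR.Counting.Psi

set_option autoImplicit false

noncomputable section

namespace Fermat.Agent.LSb.Count23

open ModularCurve AlgebraicCurve Fermat.Agent.S18lib Fermat.Agent.ProgramR

local notation "Qb" => AlgebraicClosure ℚ

/-- `c(M q) = 2 c(M)` for a prime `q ∤ M` -/
theorem cuspCount_mul_prime_of_not_dvd {M q : ℕ} (hM : M ≠ 0) (hq : q.Prime) (hqM : ¬ q ∣ M) :
    cuspCount (M * q) = 2 * cuspCount M := by
  unfold cuspCount
  have hMq : M * q ≠ 0 := mul_ne_zero hM hq.ne_zero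
  rw [← Finset.sum_filter_add_sum_filter_not (M * q).divisors (fun d => q ∣ d)]
  have h2 : (M * q).divisors.filter (fun d => ¬ q ∣ d) = M.divisors := by
    ext d
    simp only [Finset.mem_filter, Nat.mem_divisors]
    constructor
    · rintro ⟨⟨hd, -⟩, hqd⟩
      have hcop : Nat.Coprime d q := (Nat.Coprime.symm ((Nat.Prime.coprime_iff_not_dvd hq).2 hqd))
      exact ⟨hcop.dvd_of_dvd_mul_right hd, hM⟩
    · rintro ⟨hd, -⟩
      exact ⟨⟨hd.mul_right q, hMq⟩, fun h => hqM (h.trans hd)⟩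
  have h1 : (M * q).divisors.filter (fun d => q ∣ d) = M.divisors.image (q * ·) := by
    ext d
    simp only [Finset.mem_filter, Nat.mem_divisors, Finset.mem_image]
    constructor
    · rintro ⟨⟨hd, -⟩, ⟨d', rfl⟩⟩
      refine ⟨d', ⟨?_, hM⟩, rfl⟩
      have : q * d' ∣ q * M := by rwa [mul_comm q M]
      exact (Nat.mul_dvd_mul_iff_left hq.pos).1 this
    · rintro ⟨d', ⟨hd', -⟩, rfl⟩
      refine ⟨⟨?_, hMq⟩, Dvd.intro _ rfl⟩
      rw [mul_comm M q]; exact Nat.mul_dvd_mul_left q hd'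
  rw [h1, h2, Finset.sum_image (fun a _ b _ h => Nat.eq_of_mul_eq_mul_left hq.pos h), two_mul]
  congr 1
  · refine Finset.sum_congr rfl fun d hd => ?_
    rw [Nat.mem_divisors] at hd
    obtain ⟨e, he⟩ := hd.1
    have hd0 : 0 < d := Nat.pos_of_ne_zero (by rintro rfl; simp at he; exact hM he)
    have h3 : M * q / (q * d) = e := by
      rw [he, show d * e * q = q * d * e by ring, Nat.mul_div_cancel_left _ (Nat.mul_pos hq.pos hd0)]
    have h4 : M / d = e := by rw [he, Nat.mul_div_cancel_left _ hd0]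
    rw [h3, h4]
    -- `gcd (q d) e = gcd d e` since `q ∤ e`
    have hqe : ¬ q ∣ e := fun h => hqM (h.trans ⟨d, by rw [he, mul_comm]⟩)
    have hcop : Nat.Coprime q e := (Nat.Prime.coprime_iff_not_dvd hq).2 hqe
    rw [Nat.Coprime.gcd_mul_left_cancel d hcop]
  · refine Finset.sum_congr rfl fun d hd => ?_
    rw [Nat.mem_divisors] at hd
    obtain ⟨e, he⟩ := hd.1
    have hd0 : 0 < d := Nat.pos_of_ne_zero (by rintro rfl; simp at he; exact hM he)
    have h3 : M * q / d = e * q := by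
      rw [he, mul_assoc, Nat.mul_div_cancel_left _ hd0]
    have h4 : M / d = e := by rw [he, Nat.mul_div_cancel_left _ hd0]
    rw [h3, h4]
    have hqd : ¬ q ∣ d := fun h => hqM (h.trans hd.1)
    have hcop : Nat.Coprime q d := (Nat.Prime.coprime_iff_not_dvd hq).2 hqd
    rw [Nat.Coprime.gcd_mul_right_cancel_right e hcop]

section Genus

variable {M : ℕ} [NeZero M]

/-- the genus of `FBar N` satisfies the RH formula -/
theorem rhFormula_of_isCurveOfGenus (N : ℕ) [NeZero N] {g : ℕ}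
    (hF : IsCurveOfGenus Qb (FBar N) g) : Gin0.RHFormula N g := by
  obtain ⟨g', hF', hg'⟩ := Gin0.exists_isCurveOfGenus_FBar N
  rw [RRgen.Canonical.genus_unique hF hF']
  exact hg'

/-- **`q = 2`, `9 ∣ M`**: `12 (g(2M) + 1 - 2 g(M)) = ψ(M)` -/
theorem twelve_mul_two (h9 : 9 ∣ M) (h2 : ¬ 2 ∣ M) {g gM : ℕ}
    (hF : IsCurveOfGenus Qb (FBar (M * 2)) g) (hFM : IsCurveOfGenus Qb (FBar M) gM) :
    12 * ((g : ℤ) + 1 - 2 * gM) = dedekindPsi M := by
  have hM : M ≠ 0 := NeZero.ne M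
  have e1 := Gin0.rh_of_nine_dvd (M * 2) (Dvd.dvd.mul_right h9 2) (rhFormula_of_isCurveOfGenus _ hF)
  have e2 := Gin0.rh_of_nine_dvd M h9 (rhFormula_of_isCurveOfGenus _ hFM)
  rw [dedekindPsi_mul_prime_of_not_dvd hM Nat.prime_two h2,
    cuspCount_mul_prime_of_not_dvd hM Nat.prime_two h2] at e1
  push_cast at e1
  linarith

/-- **`q = 3`, `4 ∣ M`**: `6 (g(3M) + 1 - 2 g(M)) = ψ(M)` -/
theorem six_mul_three (h4 : 4 ∣ M) (h3 : ¬ 3 ∣ M) {g gM : ℕ}
    (hF : IsCurveOfGenus Qb (FBar (M * 3)) g) (hFM : IsCurveOfGenus Qb (FBar M) gM) :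
    6 * ((g : ℤ) + 1 - 2 * gM) = dedekindPsi M := by
  have hM : M ≠ 0 := NeZero.ne M
  have e1 := Gin0.rh_of_four_dvd (M * 3) (Dvd.dvd.mul_right h4 3) (rhFormula_of_isCurveOfGenus _ hF)
  have e2 := Gin0.rh_of_four_dvd M h4 (rhFormula_of_isCurveOfGenus _ hFM)
  rw [dedekindPsi_mul_prime_of_not_dvd hM Nat.prime_three h3,
    cuspCount_mul_prime_of_not_dvd hM Nat.prime_three h3] at e1
  push_cast at e1
  linarith

end Genus

end Fermat.Agent.LSb.Count23
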