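/-
LSb / Count23 / Series (helper6).
In characteristic `p ∣ 240` (i.e. `p = 2, 3, 5`): `Ē₄ = 1`, hence `j̄ · Δ̄ = 1` as `t`-expansions.
(The case `p = 3` is `S16lib.M5.jqModC_mul_DeltaQ`; restated here uniformly.)
-/
import Mathlib
import Fermat.Agent.S28lib.Series

set_option autoImplicit false

noncomputable section

namespace Fermat.Agent.LSb.Count23

open ModularCurve HahnSeries Fermat.Agent.S28lib

variable (κ : Type*) [Field κ] (p : ℕ)

theorem map_eisenstein4_of_dvd [CharP κ p] (hp : p ∣ 240) :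
    eisenstein4.map (Int.castRingHom κ) = 1 := by
  ext n
  rw [PowerSeries.coeff_map, eisenstein4, PowerSeries.coeff_mk, PowerSeries.coeff_one]
  split_ifs with h
  · simp
  · have h240 : ((240 : ℤ) : κ) = 0 := by
      have : ((240 : ℕ) : κ) = 0 := (CharP.cast_eq_zero_iff κ p 240).mpr hp
      exact_mod_cast this
    rw [eq_intCast, Int.cast_mul, h240, zero_mul]

/-- `j̄ · Δ̄ = 1` in characteristic `p ∣ 240` -/
theorem jqModC_mul_DeltaQ_of_dvd [CharP κ p] (hp : p ∣ 240) : jqModC κ * DeltaQ κ = 1 := by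
  have h1 : jNum * dedekindEtaUnit = eisenstein4 ^ 3 := by
    rw [jNum, mul_assoc, mul_comm dedekindEtaUnitInv, dedekindEtaUnit_mul_inv, mul_one]
  have h2 : HahnSeries.ofPowerSeries ℤ κ (jNum.map (Int.castRingHom κ)) *
      HahnSeries.ofPowerSeries ℤ κ (dedekindEtaUnit.map (Int.castRingHom κ)) = 1 := by
    rw [← map_mul, ← map_mul, h1, map_pow, map_eisenstein4_of_dvd κ p hp, one_pow, map_one]
  have h3 : (HahnSeries.single (-1 : ℤ) (1 : κ)) * HahnSeries.single (1 : ℤ) (1 : κ) = 1 := by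
    rw [HahnSeries.single_mul_single]
    simp
  calc jqModC κ * DeltaQ κ
      = (HahnSeries.single (-1 : ℤ) (1 : κ) * HahnSeries.single (1 : ℤ) (1 : κ)) *
        (HahnSeries.ofPowerSeries ℤ κ (jNum.map (Int.castRingHom κ)) *
          HahnSeries.ofPowerSeries ℤ κ (dedekindEtaUnit.map (Int.castRingHom κ))) := by
        rw [jqModC, DeltaQ]; ring
    _ = 1 := by rw [h2, h3, mul_one]

end Fermat.Agent.LSb.Count23
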