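/-
LSb / Count23 / Zeros (helper6).
Counting simple zeros on a function field over an algebraically closed field:
* `card_zerosOf_eq_degree` : if all zeros of `f` are simple (and all places have degree one)
  then `#zeros(f) = deg (f)_0`;
* `card_zerosOf_sub_const` : for `x` transcendental with `F / K(x)` finite separable and all zeros
  of `x - c` simple, `#zeros(x - c) = [F : K(x)]`;
* the valuation-theoretic comparison of the zeros of `j` and of `μ + 1` (resp. `μ - 1`) under the
  Hauptmodul relations `j μ⁹ (μ² + μ + 1) = (μ + 1)¹²` and `j μ⁴ (μ + 1) = (μ - 1)⁶`.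
-/
import Fermat.Agent.S18lib.Weak.PolyAdapter
import Fermat.Agent.S18lib.Tame.Count

set_option autoImplicit false

noncomputable section

namespace Fermat.Agent.LSb.Count23

open AlgebraicCurve IntermediateField Module Fermat.Agent.S18lib

section General

variable {K F : Type*} [Field K] [Field F] [Algebra K F] [HasPrincipalDivisors K F]

/-- all zeros simple, all places of degree one: the number of zeros is the degree of the zero
divisor -/
theorem card_zerosOf_eq_degree (hdeg : ∀ v : Place K F, v.deg = 1) {f : F}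
    (hsimple : ∀ v : Place K F, 0 < v.ord f → v.ord f = 1) :
    (Nat.card (Tame.zerosOf (K := K) f) : ℤ) = Divisor.degree (Tame.zeroDiv (K := K) f) := by
  classical
  rw [Tame.zerosOf_eq_support, Nat.card_coe_set_eq, Set.ncard_coe_finset]
  have h1 : Divisor.degree (Tame.zeroDiv (K := K) f) =
      ∑ v ∈ (Tame.zeroDiv (K := K) f).support, (Tame.zeroDiv (K := K) f) v * (v.deg : ℤ) := by
    rw [Divisor.degree, Finsupp.liftAddHom_apply, Finsupp.sum]
    rfl
  rw [h1, Finset.card_eq_sum_ones, Nat.cast_sum]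
  refine Finset.sum_congr rfl fun v hv => ?_
  rw [Tame.mem_support_zeroDiv] at hv
  rw [Tame.zeroDiv_apply, hsimple v hv, hdeg v]
  simp

end General

section Line

variable (K : Type*) [Field K] [IsAlgClosed K] {F : Type*} [Field F] [Algebra K F]
  [HasPrincipalDivisors K F]

/-- `#zeros(x - c) = [F : K(x)]` when all zeros of `x - c` are simple -/
theorem card_zerosOf_sub_const (hdeg : ∀ v : Place K F, v.deg = 1) {x : F}
    (hx : Transcendental K x) [FiniteDimensional K⟮x⟯ F] [Algebra.IsSeparable K⟮x⟯ F] (c : K)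
    (hsimple : ∀ v : Place K F, 0 < v.ord (x - algebraMap K F c) →
      v.ord (x - algebraMap K F c) = 1) :
    Nat.card (Tame.zerosOf (K := K) (x - algebraMap K F c)) = finrank K⟮x⟯ F := by
  have hne : x - algebraMap K F c ≠ 0 := by
    intro h
    rw [sub_eq_zero] at h
    exact hx (h ▸ isAlgebraic_algebraMap c)
  have h1 := card_zerosOf_eq_degree hdeg hsimple
  rw [Tame.degree_zeroDiv, Tame.poleDiv_sub_const x c hne,
    degree_poleDiv_eq_finrank_adjoin K hx] at h1
  exact_mod_cast h1

end Line

/-! ### comparison of zeros under the Hauptmodul relations -/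

section Val

variable {F : Type*} [Field F] {Γ : Type*} [LinearOrderedCommGroupWithZero Γ] (w : Valuation F Γ)

/-- **level 9, characteristic 2**: under `j μ⁹ (μ² + μ + 1) = (μ + 1)¹²`, the zeros of `j` are the
zeros of `μ + 1` -/
theorem val_lt_one_iff_nine {j μ : F} (hrel : j * (μ ^ 9 * (μ ^ 2 + μ + 1)) = (μ + 1) ^ 12)
    (h1 : w 1 = 1) : w j < 1 ↔ w (μ + 1) < 1 := by
  have hw1 : w (1 : F) = 1 := h1
  have hrelw : w j * (w μ ^ 9 * w (μ ^ 2 + μ + 1)) = w (μ + 1) ^ 12 := by
    rw [← map_pow, ← map_pow, ← map_mul, ← map_mul, hrel]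
  constructor
  · intro hj
    by_contra hμ1
    push Not at hμ1
    rcases lt_or_ge 1 (w μ) with hμ | hμ
    · -- pole of `μ`
      have e1 : w (μ + 1) = w μ := by
        rw [add_comm]
        exact Valuation.map_add_eq_of_lt_right w (by rw [hw1]; exact hμ)
      have hμ0 : w μ ≠ 0 := (lt_trans zero_lt_one hμ).ne'
      have e2 : w (μ ^ 2 + μ + 1) = w μ ^ 2 := by
        have hlt : w (μ + 1) < w (μ ^ 2) := by
          rw [e1, map_pow, pow_two]
          calc w μ = w μ * 1 := (mul_one _).symm
            _ < w μ * w μ := by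
              exact mul_lt_mul_of_pos_left hμ (zero_lt_iff.2 hμ0)
        rw [add_assoc]
        rw [Valuation.map_add_eq_of_lt_left w hlt, map_pow]
      rw [e1, e2, ← pow_add] at hrelw
      have h3 : w j * w μ ^ 11 = w μ * w μ ^ 11 := by
        rw [← pow_succ']
        exact hrelw
      have h4 : w j = w μ := mul_right_cancel₀ (pow_ne_zero 11 hμ0) h3
      rw [h4] at hj
      exact (lt_asymm hj hμ).elim
    · -- `μ` regular
      have e1 : w (μ + 1) ≤ 1 := by
        refine (w.map_add _ _).trans (max_le hμ ?_)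
        rw [hw1]
      have e1' : w (μ + 1) = 1 := le_antisymm e1 hμ1
      have e2 : w (μ ^ 2 + μ + 1) ≤ 1 := by
        refine (w.map_add _ _).trans (max_le ((w.map_add _ _).trans (max_le ?_ hμ)) ?_)
        · rw [map_pow]; exact pow_le_one₀ zero_le' hμ
        · rw [hw1]
      rw [e1', one_pow] at hrelw
      have h5 : w μ ^ 9 * w (μ ^ 2 + μ + 1) ≤ 1 :=
        mul_le_one₀ (pow_le_one₀ zero_le' hμ) zero_le' e2
      have h6 : w j * (w μ ^ 9 * w (μ ^ 2 + μ + 1)) < 1 := by
        calc w j * (w μ ^ 9 * w (μ ^ 2 + μ + 1)) ≤ w j * 1 :=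
              mul_le_mul_of_nonneg_left h5 zero_le'
          _ = w j := mul_one _
          _ < 1 := hj
      rw [hrelw] at h6
      exact lt_irrefl _ h6
  · intro hμ1
    -- `w μ = 1`
    have e1 : w μ = 1 := by
      have : μ = (μ + 1) + (-1) := by ring
      rw [this, Valuation.map_add_eq_of_lt_right w (by rw [Valuation.map_neg, hw1]; exact hμ1),
        Valuation.map_neg, hw1]
    have e2 : w (μ ^ 2 + μ + 1) = 1 := by
      have : μ ^ 2 + μ + 1 = 1 + ((μ + 1) ^ 2 - (μ + 1)) := by ring
      have hlt : w ((μ + 1) ^ 2 - (μ + 1)) < w (1 : F) := by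
        rw [hw1]
        refine lt_of_le_of_lt (w.map_sub _ _) (max_lt ?_ hμ1)
        rw [map_pow]
        exact pow_lt_one₀ zero_le' hμ1 (by norm_num)
      rw [this, Valuation.map_add_eq_of_lt_left w hlt, hw1]
    rw [e1, e2, one_pow, mul_one, mul_one] at hrelw
    rw [hrelw]
    exact pow_lt_one₀ zero_le' hμ1 (by norm_num)

/-- **level 4, characteristic 3**: under `j μ⁴ (μ + 1) = (μ - 1)⁶` (and `2 ≠ 0`, i.e. `w 2 = 1`),
the zeros of `j` are the zeros of `μ - 1` -/
theorem val_lt_one_iff_four {j μ : F} (hrel : j * (μ ^ 4 * (μ + 1)) = (μ - 1) ^ 6)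
    (h1 : w 1 = 1) (h2 : w 2 = 1) : w j < 1 ↔ w (μ - 1) < 1 := by
  have hw1 : w (1 : F) = 1 := h1
  have hrelw : w j * (w μ ^ 4 * w (μ + 1)) = w (μ - 1) ^ 6 := by
    rw [← map_pow, ← map_pow, ← map_mul, ← map_mul, hrel]
  constructor
  · intro hj
    by_contra hμ1
    push Not at hμ1
    rcases lt_or_ge 1 (w μ) with hμ | hμ
    · -- pole of `μ`
      have e1 : w (μ + 1) = w μ := by
        rw [add_comm]
        exact Valuation.map_add_eq_of_lt_right w (by rw [hw1]; exact hμ)
      have e1' : w (μ - 1) = w μ := by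
        rw [sub_eq_add_neg, add_comm]
        exact Valuation.map_add_eq_of_lt_right w (by rw [Valuation.map_neg, hw1]; exact hμ)
      have hμ0 : w μ ≠ 0 := (lt_trans zero_lt_one hμ).ne'
      rw [e1, e1', ← pow_succ] at hrelw
      have h3 : w j * w μ ^ 5 = w μ * w μ ^ 5 := by
        rw [← pow_succ']
        exact hrelw
      have h4 : w j = w μ := mul_right_cancel₀ (pow_ne_zero 5 hμ0) h3
      rw [h4] at hj
      exact (lt_asymm hj hμ).elim
    · -- `μ` regular
      have e1 : w (μ - 1) ≤ 1 := by
        refine (w.map_sub _ _).trans (max_le hμ ?_)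
        rw [hw1]
      have e1' : w (μ - 1) = 1 := le_antisymm e1 hμ1
      have e2 : w (μ + 1) ≤ 1 := by
        refine (w.map_add _ _).trans (max_le hμ ?_)
        rw [hw1]
      rw [e1', one_pow] at hrelw
      have h5 : w μ ^ 4 * w (μ + 1) ≤ 1 :=
        mul_le_one₀ (pow_le_one₀ zero_le' hμ) zero_le' e2
      have h6 : w j * (w μ ^ 4 * w (μ + 1)) < 1 := by
        calc w j * (w μ ^ 4 * w (μ + 1)) ≤ w j * 1 :=
              mul_le_mul_of_nonneg_left h5 zero_le'
          _ = w j := mul_one _
          _ < 1 := hj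
      rw [hrelw] at h6
      exact lt_irrefl _ h6
  · intro hμ1
    have e1 : w μ = 1 := by
      have : μ = (μ - 1) + 1 := by ring
      rw [this, Valuation.map_add_eq_of_lt_right w (by rw [hw1]; exact hμ1), hw1]
    have e2 : w (μ + 1) = 1 := by
      have : μ + 1 = (μ - 1) + 2 := by ring
      rw [this, Valuation.map_add_eq_of_lt_right w (by rw [h2]; exact hμ1), h2]
    rw [e1, e2, one_pow, mul_one, mul_one] at hrelw
    rw [hrelw]
    exact pow_lt_one₀ zero_le' hμ1 (by norm_num)

end Val

end Fermat.Agent.LSb.Count23
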