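/-
LSb / Count23 / Three (helper6).
**(COUNT) at `q = 3`, levels `M` with `4 ∣ M`, `3 ∤ M`**, in the shape consumed by helper4's
`Unit.modNodalCtx'`:  `g(3M) + 1 ≤ g_M + g_M + modS D1` (in fact equality).

`H₂ = red₁ (Δ(t)/Δ(t³)) = Δ̄⁻² = j̄²` in characteristic `3`; the nodes are the zeros of `j̄`, i.e. (by
`j̄ μ̄₄⁴ (μ̄₄ + 1) = (μ̄₄ - 1)⁶`) the zeros of `μ̄₄ - 1`, which are simple; so their number is
`[FRes A M : k(μ̄₄)] = ψ(M) / 6 = g(3M) + 1 - 2 g(M)`.
-/
import Fermat.Agent.LSb.Count23.Numerics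
import Fermat.Agent.LSb.Count23.Zeros
import Fermat.Agent.LSb.Count23.Series
import Fermat.Agent.LSb.Unit.Instance
import Fermat.Agent.S18lib.Mod23.MuLineMain

set_option autoImplicit false
set_option linter.unusedSectionVars false

noncomputable section

namespace Fermat.Agent.LSb.Count23

open AlgebraicCurve ModularCurve HahnSeries IntermediateField Module Fermat.Agent.S18lib
open Fermat.Agent.S28lib

local notation "Qb" => AlgebraicClosure ℚ

variable {M : ℕ} [NeZero M] {A : ValuationSubring (AlgebraicClosure ℚ)}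

local notation "kA" => IsLocalRing.ResidueField A

section Three


variable (h4 : 4 ∣ M) (h3M : ¬ 3 ∣ M) (hA : A.LiesOverPrime 3)
variable {D1 : GaussDatum A (FBar (M * 3)) (FRes A M)} (h1 : Old.IsGaussOne D1)

include hA h1 in
/-- `H₂ = j̄²` in characteristic `3` -/
theorem H₂_eq_jK_sq_three : Unit.H₂ D1 = Gink.jK A M ^ 2 := by
  haveI : CharP kA 3 := Old.charP_kRes hA
  apply Subtype.ext
  have e1 := Unit.coe_H₂_mul hA h1
  have e2 := jqModC_mul_DeltaQ_of_dvd kA 3 (by norm_num)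
  rw [SubmonoidClass.coe_pow, Gink.coe_jK]
  apply mul_right_cancel₀ (pow_ne_zero 2 (DeltaQ_ne_zero kA))
  rw [← mul_pow, e2, one_pow]
  simpa using e1

include h4 h3M hA h1 in
/-- the nodes are the zeros of `μ̄₄ - 1` -/
theorem modNodes_eq_three :
    Unit.modNodes D1 = Tame.zerosOf (K := kA) (Haupt.mu4K M hA h3M h4 - 1) := by
  haveI : CharP kA 3 := Old.charP_kRes hA
  have hμ : Transcendental kA (Haupt.mu4K M hA h3M h4) := Haupt.transcendental_mu4K M hA h3M h4
  have hne : Haupt.mu4K M hA h3M h4 - 1 ≠ 0 := by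
    intro h
    have h' : Haupt.mu4K M hA h3M h4 = algebraMap kA (FRes A M) 1 := by
      rw [map_one]; exact sub_eq_zero.1 h
    exact hμ (h' ▸ isAlgebraic_algebraMap _)
  have h2ne : (2 : kA) ≠ 0 := by
    intro h
    have h' : ((2 : ℕ) : kA) = 0 := by exact_mod_cast h
    rw [CharP.cast_eq_zero_iff kA 3] at h'
    omega
  ext x'
  rw [Unit.modNodes, Unit.mem_nodeSet, H₂_eq_jK_sq_three hA h1, Tame.mem_zerosOf]
  have hrel := Haupt.jK_mul_mu4K_three M hA h3M rfl h4
  have hw2 : x'.adicValuation (2 : FRes A M) = 1 := by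
    have := LSb.adicValuation_algebraMap_eq_one (Q := x') h2ne
    rwa [map_ofNat] at this
  have key := val_lt_one_iff_four x'.adicValuation hrel (map_one _) hw2
  have hsq : x'.adicValuation (Gink.jK A M ^ 2) < 1 ↔ x'.adicValuation (Gink.jK A M) < 1 := by
    rw [map_pow]
    exact pow_lt_one_iff_of_nonneg zero_le' (by norm_num)
  constructor
  · rintro ⟨-, hlt⟩
    exact ((LSb.adicValuation_lt_one_iff (Q := x')).1 (key.1 (hsq.1 hlt))).resolve_left hne
  · intro hpos
    have hlt : x'.adicValuation (Gink.jK A M) < 1 :=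
      key.2 ((LSb.adicValuation_lt_one_iff (Q := x')).2 (Or.inr hpos))
    exact ⟨(Tame.adicValuation_le_one_iff_mem x' _).1 hlt.le, hsq.2 hlt⟩

include h4 h3M hA h1 in
/-- the number of nodes is `[FRes A M : k(μ̄₄)]` -/
theorem modS_eq_three [HasPrincipalDivisors kA (FRes A M)]
    (hdeg : ∀ v : Place kA (FRes A M), v.deg = 1) :
    Unit.modS D1 = finrank kA⟮Haupt.mu4K M hA h3M h4⟯ (FRes A M) := by
  haveI : IsAlgClosed kA := Gink.isAlgClosed_residueField A
  haveI := Mod23.finiteDimensional_mu4K M A rfl h3M hA h4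
  haveI := Mod23.isSeparable_mu4K M A rfl h3M hA h4
  have hμ : Transcendental kA (Haupt.mu4K M hA h3M h4) := Haupt.transcendental_mu4K M hA h3M h4
  have e : Haupt.mu4K M hA h3M h4 - algebraMap kA (FRes A M) 1 =
      Haupt.mu4K M hA h3M h4 - 1 := by
    rw [map_one]
  have h := card_zerosOf_sub_const kA hdeg hμ 1 (by
    intro v hv
    rw [e] at hv ⊢
    exact Mod23.ord_mu4K_sub_one M A rfl h3M hA h4 v hv)
  rw [e] at h
  rw [← h]
  show Nat.card (Unit.modNodes D1) = _
  rw [modNodes_eq_three h4 h3M hA h1]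

include h4 h3M hA h1 in
/-- **(COUNT), `q = 3`, `4 ∣ M`** (equality) -/
theorem count_three_eq {g gM : ℕ} (hF : IsCurveOfGenus Qb (FBar (M * 3)) g)
    (hFk : IsCurveOfGenus kA (FRes A M) gM) : g + 1 = gM + gM + Unit.modS D1 := by
  obtain ⟨g', hL, hK⟩ := Mod23.exists_genus_four M A rfl h3M hA h4
  have hgM : gM = g' := RRgen.Canonical.genus_unique hFk hK
  subst hgM
  haveI := hFk.hasPrincipalDivisors
  have e1 := six_mul_three h4 h3M hF hL
  have e2 := Mod23.dedekindPsi_eq_mu4K M A rfl h3M hA h4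
  have e3 := modS_eq_three h4 h3M hA h1 hFk.deg_eq_one
  rw [← e3] at e2
  rw [e2] at e1
  push_cast at e1
  omega

include h4 h3M hA h1 in
/-- **(COUNT), `q = 3`, `4 ∣ M`**, in the shape of `Unit.modNodalCtx'` -/
theorem count_three {g gM : ℕ} (hF : IsCurveOfGenus Qb (FBar (M * 3)) g)
    (hFk : IsCurveOfGenus kA (FRes A M) gM) : g + 1 ≤ gM + gM + Unit.modS D1 :=
  (count_three_eq h4 h3M hA h1 hF hFk).le

end Three

end Fermat.Agent.LSb.Count23
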